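import Fermat.Agent.TwoAdic.TypeSpace.IdealSeries
import Mathlib.NumberTheory.NumberField.Discriminant.Different
import Mathlib.NumberTheory.RamificationInertia.Ramification

/-!
# The residual operators on the ideal series

For a prime `ℓ` not dividing `f`, the operator `U_ℓ` (`ℓ` dividing the discriminant) or `T_ℓ`
(otherwise) acts on the series through the coefficient `θ(ℓ) ∈ k[G]`. For a further prime `r` not
dividing the discriminant the space `S + U_r S` of the series `S` is stable under all of these and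
under `U_r`, and the image of a high power of `U_r - ω'` is the `ω`-stabilised space.

Owner: helper9 (LT2).
-/

set_option autoImplicit false

noncomputable section

open NumberField

namespace Fermat.Agent.TwoAdic.TypeSpace

open RingClass PrimeClasses

variable {K : Type*} [Field K] [NumberField K]

theorem isUnramifiedAt_iff_not_le_sq {ℓ : ℕ} (hℓ : ℓ.Prime) {P : Ideal (𝓞 K)} [P.IsPrime]
    (hPℓ : (ℓ : 𝓞 K) ∈ P) :
    Algebra.IsUnramifiedAt ℤ P ↔ ¬ (P.under ℤ).map (algebraMap ℤ (𝓞 K)) ≤ P ^ 2 := by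
  have hp : P.under ℤ ≠ ⊥ := by
    refine Submodule.ne_bot_iff _ |>.mpr ⟨(ℓ : ℤ), ?_, by exact_mod_cast hℓ.ne_zero⟩
    simpa using hPℓ
  rw [← Ideal.ramificationIdx_eq_one_iff,
    ← Ideal.ramificationIdx'_eq_ramificationIdx (P.under ℤ) P hp,
    ← Ideal.ramificationIdx'_ne_one_iff Ideal.map_comap_le, not_ne_iff]

theorem dvd_discr_of_mul_self_eq {ℓ : ℕ} (hℓ : ℓ.Prime) {P : Ideal (𝓞 K)}
    (hPN : Ideal.absNorm P = ℓ) (hmul : P * P = Ideal.span {(ℓ : 𝓞 K)}) :
    (ℓ : ℤ) ∣ discr K := by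
  by_contra h
  have hPp : P.IsPrime := Ideal.isPrime_of_irreducible_absNorm (hPN.symm ▸ hℓ)
  have hmem : ((ℓ : ℤ) : 𝓞 K) ∈ P := by
    have : (ℓ : 𝓞 K) ∈ P * P := hmul ▸ Ideal.mem_span_singleton_self _
    simpa using Ideal.mul_le_left this
  have hu := (not_dvd_discr_iff_forall_mem K (𝓞 K) (Nat.prime_iff_prime_int.mp hℓ)).mp h P hPp hmem
  refine (isUnramifiedAt_iff_not_le_sq hℓ (by simpa using hmem)).mp hu ?_
  rw [Ideal.map_le_iff_le_comap]
  intro z hz
  rw [Ideal.mem_comap, sq, hmul, Ideal.mem_span_singleton]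
  have hz' : (algebraMap ℤ (𝓞 K) z) ∈ P := hz
  have hzn : (ℓ : ℤ) ∣ z := by
    have := Ideal.absNorm_dvd_norm_of_mem hz'
    rw [hPN, Algebra.norm_algebraMap] at this
    exact (Nat.prime_iff_prime_int.mp hℓ).dvd_of_dvd_pow this
  simpa using map_dvd (algebraMap ℤ (𝓞 K)) hzn

theorem exists_mul_self_eq_of_dvd_discr (h2 : Module.finrank ℚ K = 2) {ℓ : ℕ} (hℓ : ℓ.Prime)
    (h : (ℓ : ℤ) ∣ discr K) :
    ∃ P : Ideal (𝓞 K), Ideal.absNorm P = ℓ ∧ P * P = Ideal.span {(ℓ : 𝓞 K)} := by
  have h' : ¬ ∀ (P : Ideal (𝓞 K)) (_ : P.IsPrime), ((ℓ : ℤ) : 𝓞 K) ∈ P →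
      Algebra.IsUnramifiedAt ℤ P :=
    fun hall => (not_dvd_discr_iff_forall_mem K (𝓞 K) (Nat.prime_iff_prime_int.mp hℓ)).mpr hall h
  push Not at h'
  obtain ⟨P, hP, hPℓ, hu⟩ := h'
  have hle := not_not.mp (mt (isUnramifiedAt_iff_not_le_sq hℓ (by simpa using hPℓ)).mpr hu)
  have hl2 : Ideal.span {(ℓ : 𝓞 K)} ≤ P ^ 2 := by
    rw [Ideal.span_singleton_le_iff_mem]
    refine hle ?_
    have hc : (ℓ : ℤ) ∈ P.comap (algebraMap ℤ (𝓞 K)) := by simpa using hPℓ
    have hm := Ideal.mem_map_of_mem (algebraMap ℤ (𝓞 K)) hc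
    rwa [map_natCast] at hm
  have hd := Ideal.absNorm_dvd_absNorm_of_le hl2
  rw [absNorm_span_prime h2, map_pow] at hd
  have hdl : Ideal.absNorm P ∣ ℓ := (Nat.pow_dvd_pow_iff two_ne_zero).mp hd
  have hPN : Ideal.absNorm P = ℓ := (hℓ.eq_one_or_self_of_dvd _ hdl).resolve_left fun h1 =>
    hP.ne_top (Ideal.absNorm_eq_one_iff.mp h1)
  obtain ⟨J, hJ⟩ := Ideal.dvd_iff_le.mpr hl2
  have hJn := congrArg Ideal.absNorm hJ
  rw [absNorm_span_prime h2, map_mul, map_pow, hPN] at hJn
  have hJ1 : Ideal.absNorm J = 1 := mul_left_cancel₀ (pow_ne_zero 2 hℓ.ne_zero) (by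
    rw [mul_one]; exact hJn.symm)
  exact ⟨P, hPN, by rw [hJ, Ideal.absNorm_eq_one_iff.mp hJ1, Ideal.mul_top, sq]⟩

section Theta

variable {f : ℕ} [NeZero f] {G : Type*} [CommGroup G] {k : Type*} [Field k] [CharP k 2]
  {π : RingClassGroup K f →* G} {u : RingClassGroup K f →* kˣ}
  (h2 : Module.finrank ℚ K = 2) {ℓ : ℕ} (hℓ : ℓ.Prime) (hℓf : ¬ ℓ ∣ f)

include h2 hℓ hℓf

omit [CharP k 2] in
/-- `U_ℓ` at a prime dividing the discriminant acts through `θ(ℓ)`. -/
theorem upSeq_seriesMap_theta (hd : (ℓ : ℤ) ∣ discr K) (x : MonoidAlgebra k G) :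
    upSeq ℓ (seriesMap π u x) = seriesMap π u (x * theta π u ℓ) := by
  obtain ⟨P, hPN, hmul⟩ := exists_mul_self_eq_of_dvd_discr h2 hℓ hd
  have hP := (mem_primeTo_of_absNorm hℓ hℓf hmul).1
  have h := idealSeries_ramified (clsFun (classVal π u)) hℓ hPN hmul one_ne_zero
  rw [mul_one, idealSeries_one, mul_one, clsFun_of_mem _ hP] at h
  rw [upSeq_seriesMap hℓ hℓf hPN hmul x, theta, h]

/-- `T_ℓ` at a prime not dividing the discriminant acts through `θ(ℓ)`. -/
theorem heckeSeq_seriesMap_theta (hd : ¬ (ℓ : ℤ) ∣ discr K) (x : MonoidAlgebra k G) :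
    heckeSeq ℓ (seriesMap π u x) = seriesMap π u (x * theta π u ℓ) := by
  have key : ∀ a : MonoidAlgebra k G,
      (∀ n : ℕ, n ≠ 0 → theta π u (ℓ * n) + (if ℓ ∣ n then theta π u (n / ℓ) else 0) =
        a * theta π u n) → heckeSeq ℓ (seriesMap π u x) = seriesMap π u (x * theta π u ℓ) := by
    intro a ha
    have h1 := ha 1 one_ne_zero
    rw [mul_one, theta_one, mul_one, if_neg hℓ.not_dvd_one, add_zero] at h1
    rw [heckeSeq_seriesMap a ha x, h1]
  rcases prime_cases (K := K) h2 hℓ with hp | ⟨P, P', hPN, hP'N, hmul⟩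
  · exact key _ fun n hn => theta_inert h2 hℓ hℓf hp hn
  · have hne : P ≠ P' := fun he => hd (dvd_discr_of_mul_self_eq hℓ hPN (he ▸ hmul))
    exact key _ fun n hn => theta_split h2 hℓ hℓf hPN hP'N hne hmul hn

omit [NeZero f] [CharP k 2] h2 hℓ hℓf in
/-- The augmentation of `θ(ℓ)`. -/
theorem lift_theta : MonoidAlgebra.lift k k G (1 : G →* k) (theta π u ℓ) =
    ∑ b ∈ idealsOfNorm K ℓ, clsFun ((Units.coeHom k).comp u) b := by
  rw [theta, idealSeries, map_sum]
  refine Finset.sum_congr rfl fun b _ => ?_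
  by_cases hb : b ∈ primeTo K f
  · rw [clsFun_of_mem _ hb, clsFun_of_mem _ hb]; simp [classVal]
  · rw [clsFun_of_not_mem _ hb, clsFun_of_not_mem _ hb, map_zero]

end Theta

section Stabilised

variable {f : ℕ} [NeZero f] {G : Type*} [CommGroup G] {k : Type*} [Field k]
  {π : RingClassGroup K f →* G} {u : RingClassGroup K f →* kˣ}

/-- `U_ℓ` for `ℓ ∣ M` and `T_ℓ` otherwise, on series. -/
def opSeq (M ℓ : ℕ) : Module.End k (ℕ → k) := if ℓ ∣ M then upSeq ℓ else heckeSeq ℓ

theorem upSeq_upSeq_comm (r ℓ : ℕ) (v : ℕ → k) : upSeq ℓ (upSeq r v) = upSeq r (upSeq ℓ v) := by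
  funext n
  exact congrArg v (mul_left_comm r ℓ n)

theorem heckeSeq_upSeq_comm {r ℓ : ℕ} (hℓ : ℓ.Prime) (hr : r.Prime) (hne : ℓ ≠ r) (v : ℕ → k) :
    heckeSeq ℓ (upSeq r v) = upSeq r (heckeSeq ℓ v) := by
  have hcop : ℓ.Coprime r := (Nat.coprime_primes hℓ hr).mpr hne
  funext n
  show v (r * (ℓ * n)) + (if ℓ ∣ n then v (r * (n / ℓ)) else 0) =
    v (ℓ * (r * n)) + (if ℓ ∣ r * n then v (r * n / ℓ) else 0)
  rw [mul_left_comm r ℓ n]
  by_cases hd : ℓ ∣ n
  · rw [if_pos hd, if_pos (hd.mul_left r), Nat.mul_div_assoc r hd]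
  · rw [if_neg hd, if_neg (mt hcop.dvd_of_dvd_mul_left hd)]

theorem opSeq_upSeq_comm {M r ℓ : ℕ} (hℓ : ℓ.Prime) (hr : r.Prime) (hne : ℓ ≠ r) (v : ℕ → k) :
    opSeq M ℓ (upSeq r v) = upSeq r (opSeq M ℓ v) := by
  rw [opSeq]
  split_ifs
  · exact upSeq_upSeq_comm r ℓ v
  · exact heckeSeq_upSeq_comm hℓ hr hne v

theorem upSeq_upSeq_eq_add [CharP k 2] {r : ℕ} (hr : 0 < r) (v : ℕ → k) :
    upSeq r (upSeq r v) = upSeq r (heckeSeq r v) + v := by
  funext n
  show v (r * (r * n)) = v (r * (r * n)) + (if r ∣ r * n then v (r * n / r) else 0) + v n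
  rw [if_pos (dvd_mul_right r n), Nat.mul_div_cancel_left _ hr, add_assoc, CharTwo.add_self_eq_zero,
    add_zero]

variable (π u) in
/-- `S + U_r S`. -/
def pairMap (r : ℕ) : MonoidAlgebra k G × MonoidAlgebra k G →ₗ[k] ℕ → k :=
  (seriesMap π u).coprod ((upSeq r).comp (seriesMap π u))

theorem pairMap_apply (r : ℕ) (x y : MonoidAlgebra k G) :
    pairMap π u r (x, y) = seriesMap π u x + upSeq r (seriesMap π u y) := rfl

variable (π u) in
/-- The space of the `ω`-stabilised series. -/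
def stabSpace (r N : ℕ) (ω' : k) : Submodule k (ℕ → k) :=
  (LinearMap.range (pairMap π u r)).map ((upSeq r - ω' • 1 : Module.End k (ℕ → k)) ^ N)

variable (π u) in
/-- The `ω`-stabilised series of a class. -/
def stabSeries (r N : ℕ) (ω' : k) (g : G) : ℕ → k :=
  ((upSeq r - ω' • 1 : Module.End k (ℕ → k)) ^ N) (series π u g)

theorem stabSeries_mem (r N : ℕ) (ω' : k) (g : G) :
    stabSeries π u r N ω' g ∈ stabSpace π u r N ω' := by
  refine Submodule.mem_map_of_mem ⟨(MonoidAlgebra.single g⁻¹ 1, 0), ?_⟩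
  simp [pairMap_apply, seriesMap_single]

section Other

variable {r : ℕ} {ω' : k} (N : ℕ) {T : Module.End k (ℕ → k)} {a : MonoidAlgebra k G}
  (hT : ∀ x, T (seriesMap π u x) = seriesMap π u (x * a))
  (hc : ∀ v, T (upSeq r v) = upSeq r (T v))

include hT hc in
theorem apply_pairMap (x y : MonoidAlgebra k G) :
    T (pairMap π u r (x, y)) = pairMap π u r (x * a, y * a) := by
  rw [pairMap_apply, pairMap_apply, map_add, hT, hc, hT]

include hc in
theorem commute_stabPow : Commute T ((upSeq r - ω' • 1 : Module.End k (ℕ → k)) ^ N) :=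
  ((show Commute T (upSeq r) from LinearMap.ext hc).sub_right
    ((Commute.one_right _).smul_right _)).pow_right _

include hT hc in
theorem apply_mem_stabSpace : ∀ v ∈ stabSpace π u r N ω', T v ∈ stabSpace π u r N ω' := by
  rintro _ ⟨_, ⟨⟨x, y⟩, rfl⟩, rfl⟩
  rw [← Module.End.mul_apply, (commute_stabPow N hc).eq, Module.End.mul_apply,
    apply_pairMap hT hc]
  exact Submodule.mem_map_of_mem ⟨_, rfl⟩

variable [Finite G] [CharP k 2] (hG : IsPGroup 2 G)
include hG hT hc

theorem exists_pow_eq_zero_stabSpace {c : k}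
    (hac : MonoidAlgebra.lift k k G (1 : G →* k) a = c) :
    ∃ j : ℕ, ∀ v ∈ stabSpace π u r N ω', ((T - c • (1 : Module.End k (ℕ → k))) ^ j) v = 0 := by
  obtain ⟨j, hj⟩ := exists_pow_sub_eq_zero hG T a hT
  rw [hac] at hj
  refine ⟨j, ?_⟩
  rintro _ ⟨_, ⟨⟨x, y⟩, rfl⟩, rfl⟩
  have hcj : ∀ v, ((T - c • (1 : Module.End k (ℕ → k))) ^ j) (upSeq r v) =
      upSeq r (((T - c • (1 : Module.End k (ℕ → k))) ^ j) v) :=
    LinearMap.ext_iff.mp ((((show Commute T (upSeq r) from LinearMap.ext hc).sub_left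
      ((Commute.one_left _).smul_left _))).pow_left j)
  rw [← Module.End.mul_apply,
    (((commute_stabPow N hc).sub_left ((Commute.one_left _).smul_left _)).pow_left j).eq,
    Module.End.mul_apply, pairMap_apply, map_add (((T - _) ^ j) : Module.End k (ℕ → k)), hcj,
    hj _ (range_seriesMap π u ▸ LinearMap.mem_range_self _ x),
    hj _ (range_seriesMap π u ▸ LinearMap.mem_range_self _ y)]
  simp

end Other

section AtR

variable [CharP k 2] {r : ℕ} (hr : r.Prime) {t : MonoidAlgebra k G}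
  (hrT : ∀ x, heckeSeq r (seriesMap π u x) = seriesMap π u (x * t))

include hr hrT

theorem upSeq_upSeq_seriesMap (x : MonoidAlgebra k G) :
    upSeq r (upSeq r (seriesMap π u x)) = upSeq r (seriesMap π u (x * t)) + seriesMap π u x := by
  rw [upSeq_upSeq_eq_add hr.pos, hrT]

theorem upSeq_pairMap (x y : MonoidAlgebra k G) :
    upSeq r (pairMap π u r (x, y)) = pairMap π u r (y, x + y * t) := by
  rw [pairMap_apply, pairMap_apply, map_add, upSeq_upSeq_seriesMap hr hrT, map_add, map_add]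
  abel

theorem upSeq_mem_stabSpace (N : ℕ) (ω' : k) :
    ∀ v ∈ stabSpace π u r N ω', upSeq r v ∈ stabSpace π u r N ω' := by
  rintro _ ⟨_, ⟨⟨x, y⟩, rfl⟩, rfl⟩
  rw [← Module.End.mul_apply, (commute_stabPow (T := upSeq r) N fun v => rfl).eq,
    Module.End.mul_apply, upSeq_pairMap hr hrT]
  exact Submodule.mem_map_of_mem ⟨_, rfl⟩

variable (ht : MonoidAlgebra.lift k k G (1 : G →* k) t = 1) {ω : k} (hω : ω ^ 2 + ω + 1 = 0)
  [Finite G] (hG : IsPGroup 2 G)
include ht hω hG

/-- For large `N` the operator `U_r - ω` is nilpotent on the stabilised space. -/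
theorem exists_pow_upSeq_eq_zero :
    ∃ N : ℕ, ∀ v ∈ stabSpace π u r N (ω + 1),
      ((upSeq r - ω • 1 : Module.End k (ℕ → k)) ^ N) v = 0 := by
  obtain ⟨N, hN⟩ := isNilpotent_sub_algebraMap hG t
  rw [ht, map_one] at hN
  refine ⟨N, ?_⟩
  rintro _ ⟨_, ⟨⟨x, y⟩, rfl⟩, rfl⟩
  set V : Module.End k (ℕ → k) := upSeq r with hV
  set Q : Module.End k (ℕ → k) := (V - ω • 1) * (V - (ω + 1) • 1) with hQdef
  have hw : ω * (ω + 1) = 1 := by
    linear_combination hω - (CharTwo.two_eq_zero (R := k))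
  have hQ : ∀ v, Q v = V (V v) + V v + v := fun v => by
    show V (V v - (ω + 1) • v) - ω • (V v - (ω + 1) • v) = _
    rw [map_sub, map_smul, smul_sub, smul_smul, hw, one_smul, add_smul, one_smul,
      sub_add_eq_sub_sub]
    funext n
    simp only [Pi.sub_apply, Pi.add_apply, Pi.smul_apply, smul_eq_mul]
    linear_combination (-(V v n) * (ω + 1)) * (CharTwo.two_eq_zero (R := k))
  have hQS : ∀ z, Q (seriesMap π u z) = V (seriesMap π u (z * (t - 1))) := fun z => by
    rw [hQ, hV, upSeq_upSeq_seriesMap hr hrT, mul_sub, mul_one, map_sub, map_sub]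
    funext n
    simp only [Pi.sub_apply, Pi.add_apply]
    linear_combination (upSeq r (seriesMap π u z) n + seriesMap π u z n) *
      (CharTwo.two_eq_zero (R := k))
  have hQV : Commute Q V :=
    ((Commute.refl V).sub_left ((Commute.one_left _).smul_left _)).mul_left
      ((Commute.refl V).sub_left ((Commute.one_left _).smul_left _))
  have hQn : ∀ j z, (Q ^ j) (seriesMap π u z) = (V ^ j) (seriesMap π u (z * (t - 1) ^ j)) := by
    intro j
    induction j with
    | zero => simp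
    | succ j ih =>
      intro z
      rw [pow_succ, Module.End.mul_apply, hQS, ← Module.End.mul_apply, (hQV.pow_left j).eq,
        Module.End.mul_apply, ih, ← Module.End.mul_apply, ← pow_succ', mul_assoc, ← pow_succ']
  have hc : Commute (V - ω • 1) (V - (ω + 1) • 1) :=
    ((Commute.refl V).sub_right ((Commute.one_right _).smul_right _)).sub_left
      ((Commute.one_left _).smul_left _)
  rw [← Module.End.mul_apply, ← hc.mul_pow, ← hQdef, pairMap_apply, map_add (Q ^ N),
    ← Module.End.mul_apply (Q ^ N) V, (hQV.pow_left N).eq, Module.End.mul_apply, hQn, hQn, hN]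
  simp

/-- The stabilised series of the classes stay independent. -/
theorem linearIndependent_stabSeries (h2 : Module.finrank ℚ K = 2) (hπ : Function.Surjective π)
    (hu3 : ∀ c, u c ^ 3 = 1) (hu1 : u ≠ 1) (N : ℕ) :
    LinearIndependent k (stabSeries π u r N (ω + 1)) := by
  classical
  set ε := MonoidAlgebra.lift k k G (1 : G →* k)
  have hω0 : ω ≠ 0 := fun h => by simp [h] at hω
  set V : Module.End k (ℕ → k) := upSeq r - (ω + 1) • 1 with hV
  suffices hinj : ∀ x, (V ^ N) (seriesMap π u x) = 0 → x = 0 by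
    have := Fintype.ofFinite G
    rw [Fintype.linearIndependent_iff]
    intro c hc g
    have hx := hinj (∑ h : G, MonoidAlgebra.single h⁻¹ (c h)) (by
      simpa [map_sum, seriesMap_single, stabSeries] using hc)
    have := congrArg (fun y => y.coeff g⁻¹) hx
    simpa [MonoidAlgebra.coeff_sum, Finsupp.single_apply, inv_inj] using this
  cases N with
  | zero =>
    intro x hx
    exact eq_zero_of_seriesMap_eq_zero h2 hπ hG hu3 hu1 ∅ x fun n _ _ => congrFun hx n
  | succ N =>
    obtain ⟨p, q, hp, hq, hpq⟩ : ∃ p q : MonoidAlgebra k G, ε p = 1 ∧ ε q = ω + 1 ∧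
        ∀ x, (V ^ (N + 1)) (seriesMap π u x) = pairMap π u r (x * q, x * p) := by
      induction N with
      | zero =>
        refine ⟨1, algebraMap k _ (ω + 1), map_one _, ε.commutes _, fun x => ?_⟩
        rw [pow_one, pairMap_apply, mul_one, hV, LinearMap.sub_apply, LinearMap.smul_apply,
          Module.End.one_apply, ← map_smul, Algebra.smul_def, mul_comm x]
        funext n
        simp only [Pi.sub_apply, Pi.add_apply]
        linear_combination (-(seriesMap π u (algebraMap k _ (ω + 1) * x) n)) *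
          (CharTwo.two_eq_zero (R := k))
      | succ N ih =>
        obtain ⟨p, q, hp, hq, hpq⟩ := ih
        refine ⟨q + p * t - (ω + 1) • p, p - (ω + 1) • q, ?_, ?_, fun x => ?_⟩
        · rw [map_sub, map_add, map_mul, map_smul, hp, hq, ht, smul_eq_mul]
          ring
        · rw [map_sub, map_smul, hp, hq, smul_eq_mul]
          linear_combination -hω + (-ω) * (CharTwo.two_eq_zero (R := k))
        · rw [pow_succ', Module.End.mul_apply, hpq, hV, LinearMap.sub_apply, LinearMap.smul_apply,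
            Module.End.one_apply, upSeq_pairMap hr hrT, ← map_smul (pairMap π u r), ← map_sub]
          congr 1
          simp only [Prod.smul_mk, Prod.mk_sub_mk, mul_sub, mul_add, mul_assoc, mul_smul_comm]
    intro x hx
    rw [hpq] at hx
    have hres : x * (q + p * t) = 0 := by
      refine eq_zero_of_seriesMap_eq_zero h2 hπ hG hu3 hu1 {r} _ fun n hn hnr => ?_
      have h1 : seriesMap π u (x * p * t) n = upSeq r (seriesMap π u (x * p)) n := by
        rw [← hrT]
        show seriesMap π u (x * p) (r * n) +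
          (if r ∣ n then seriesMap π u (x * p) (n / r) else 0) = _
        rw [if_neg (hnr r (Finset.mem_singleton_self r) hr), add_zero]
        rfl
      rw [mul_add, ← mul_assoc, map_add, Pi.add_apply, h1]
      exact congrFun hx n
    have hεqp : ε (q + p * t) = ω := by
      rw [map_add, map_mul, hp, hq, ht]
      linear_combination (CharTwo.two_eq_zero (R := k))
    have hunit : IsUnit (q + p * t) := by
      have hn := isNilpotent_sub_algebraMap hG (q + p * t)
      rw [hεqp] at hn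
      have h1 := hn.isUnit_add_left_of_commute
        ((Ne.isUnit hω0).map (algebraMap k (MonoidAlgebra k G))) (Commute.all _ _)
      rwa [add_sub_cancel] at h1
    exact hunit.mul_left_eq_zero.mp hres

end AtR

end Stabilised

end Fermat.Agent.TwoAdic.TypeSpace
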