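import Fermat.Agent.TwoAdic.TypeSpace.GoodPart.Weil
import Fermat.Agent.TwoAdic.HeckeSide.WeilInstance

/-!
# The good part of the type space at level `2 m r`

Forms of level `2 m` whose reductions are the ideal series give, after `ω`-stabilisation at `r`, a
family of size `#G''` in the parts of the type space of level `2 m r` at the systems reducing to
`chibar`.

Owner: helper9 (LT2).
-/

set_option autoImplicit false

noncomputable section

open Module NumberField
open scoped nonZeroDivisors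

namespace Fermat.Agent.TwoAdic.HeckeSide.HeckeData

open RingClass TypeSpace Cohom Weil PrimeClasses

variable (D : HeckeData)

/-- The residual character on ring classes. -/
def ringChar : RingClassGroup D.K D.f →* D.kˣ := D.χ.comp toClassGroup

theorem ringChar_cube (c : RingClassGroup D.K D.f) : D.ringChar c ^ 3 = 1 := D.χ_cube _

theorem ringChar_ne_one : D.ringChar ≠ 1 := fun h => D.χ_ne_one (MonoidHom.ext fun c => by
  obtain ⟨x, rfl⟩ := toClassGroup_surjective (K := D.K) (f := D.f) c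
  exact DFunLike.congr_fun h x)

theorem r_not_dvd_f : ¬ D.r ∣ D.f := D.not_dvd_f D.r_prime D.q_ne_r

theorem dvd_discr_iff {l : ℕ} (hl : l.Prime) : (l : ℤ) ∣ NumberField.discr D.K ↔ l ∣ D.N := by
  rw [D.discr_eq, dvd_neg, show (8 * (D.m : ℤ)) = ((8 * D.m : ℕ) : ℤ) by push_cast; rfl,
    Int.natCast_dvd_natCast, show 8 * D.m = 2 ^ 3 * D.m by rfl, N, hl.dvd_mul, hl.dvd_mul]
  exact or_congr_left ⟨hl.dvd_of_dvd_pow, fun h => h.trans (dvd_pow_self 2 three_ne_zero)⟩

theorem mem_primeTo_of_absNorm_coprime {l : ℕ} (hl : l.Prime) (hlf : ¬ l ∣ D.f)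
    {b : Ideal (𝓞 D.K)} (hb : Ideal.absNorm b = l) : b ∈ primeTo D.K D.f := by
  refine ⟨fun h => hl.ne_zero (by rw [← hb, h, Ideal.absNorm_bot]), ?_⟩
  rw [Ideal.isCoprime_iff_exists]
  obtain ⟨x, y, hxy⟩ := Int.isCoprime_iff_nat_coprime.mpr
    (show ((l : ℤ).natAbs).Coprime (D.f : ℤ).natAbs by simpa using hl.coprime_iff_not_dvd.mpr hlf)
  refine ⟨(x : 𝓞 D.K) * (l : 𝓞 D.K), Ideal.mul_mem_left _ _ (hb ▸ Ideal.absNorm_mem b),
    (y : 𝓞 D.K) * (D.f : 𝓞 D.K), Ideal.mul_mem_left _ _ (Ideal.mem_span_singleton_self _), ?_⟩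
  exact_mod_cast congrArg (Int.cast (R := 𝓞 D.K)) hxy

/-- `tbar` is the augmentation of the coefficient of the ideal series. -/
theorem lift_theta_eq_tbar {l : ℕ} (hl : l.Prime) (hlf : ¬ l ∣ D.f) :
    MonoidAlgebra.lift D.k D.k (G2 D.K D.f) (1 : G2 D.K D.f →* D.k)
      (theta (toG2 D.K D.f) D.ringChar l) = D.tbar l := by
  classical
  rw [lift_theta, tbar, if_pos hl.ne_zero]
  refine Finset.sum_congr rfl fun b hb => ?_
  have hp := D.mem_primeTo_of_absNorm_coprime hl hlf (mem_idealsOfNorm.mp hb)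
  rw [clsFun_of_mem _ hp, dif_pos (mem_nonZeroDivisors_iff_ne_zero.mpr hp.1)]
  show (D.χ (toClassGroup (cls ⟨b, hp⟩)) : D.k) = _
  rw [toClassGroup_cls]
  rfl

/-- A lift of the other root `ω + 1`. -/
theorem exists_omega_lift : ∃ z : integralClosure ℤ ℂ, D.red z = D.omega + 1 := by
  obtain ⟨ζ, hζ⟩ := IsAlgClosed.exists_root (Polynomial.X ^ 2 + Polynomial.X + 1 : Polynomial ℂ)
    (by rw [show (Polynomial.X ^ 2 + Polynomial.X + 1 : Polynomial ℂ).degree = 2 by compute_degree!]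
        exact two_ne_zero)
  have hζ' : ζ ^ 2 + ζ + 1 = 0 := by simpa using hζ
  let z : integralClosure ℤ ℂ :=
    ⟨ζ, ⟨Polynomial.X ^ 2 + Polynomial.X + 1, by monicity!, by simpa using hζ'⟩⟩
  have hz : D.red z ^ 2 + D.red z + 1 = 0 := by
    have : z ^ 2 + z + 1 = 0 := Subtype.ext (by simpa using hζ')
    simpa using congrArg D.red this
  have h : (D.red z - D.omega) * (D.red z + D.omega + 1) = 0 := by
    linear_combination hz - D.omega_spec
  rcases mul_eq_zero.mp h with h | h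
  · exact ⟨z + 1, by rw [map_add, map_one, sub_eq_zero.mp h]⟩
  · exact ⟨z, by linear_combination h - (D.omega + 1) * (CharTwo.two_eq_zero (R := D.k))⟩

/-- **The good part of the type space at level `2 m r`.** -/
theorem natCard_G2_le_finrank_goodPart (hr : D.RSplit)
    (Φ : G2 D.K D.f → typeSpace D.f D.N D.sigma)
    (hΦ : ∀ g n, ∃ a : integralClosure ℤ ℂ,
      (a : ℂ) = ModularFormClass.qCoeff (evalFun D.f D.w0 (Φ g).1) n ∧
        D.red a = series (toG2 D.K D.f) D.ringChar g n) :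
    Nat.card (G2 D.K D.f) ≤ finrank ℂ (goodPart (A := typeSpace D.f D.M D.sigma)
      (algebraMap (integralClosure ℤ ℂ) ℂ) D.red (opsType D.M D.sigma D.goodPrimes_ops)
      fun l : D.ops => D.chibar l) := by
  have hfix := D.isTorusFixed
  have hcusp := D.isCuspidalType_M
  set π := toG2 D.K D.f
  set u := D.ringChar
  have hG := isPGroup_G2 D.K D.f
  have h2 := D.finrank_eq
  have hrr := D.r_prime
  have hrf := D.r_not_dvd_f
  have hrN : ¬ D.r ∣ D.N := D.r_not_dvd
  have hrT : ∀ x, heckeSeq D.r (seriesMap π u x) = seriesMap π u (x * theta π u D.r) :=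
    heckeSeq_seriesMap_theta h2 hrr hrf fun h => hrN ((D.dvd_discr_iff hrr).mp h)
  have ht : MonoidAlgebra.lift D.k D.k _ (1 : G2 D.K D.f →* D.k) (theta π u D.r) = 1 :=
    (D.lift_theta_eq_tbar hrr hrf).trans hr
  obtain ⟨N, hN⟩ := exists_pow_upSeq_eq_zero hrr hrT ht D.omega_spec hG
  set U := stabSpace π u D.r N (D.omega + 1)
  have hop : ∀ l ∈ D.ops, (l = D.r ∧ opSeq (k := D.k) D.M l = upSeq l) ∨
      ((l ≠ D.r) ∧ ∀ x, opSeq D.M l (seriesMap π u x) =
        seriesMap π u (x * theta π u l)) := by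
    intro l hl
    by_cases hlr : l = D.r
    · exact Or.inl ⟨hlr, by rw [opSeq, if_pos (hlr ▸ dvd_mul_left D.r D.N)]⟩
    · refine Or.inr ⟨hlr, fun x => ?_⟩
      have hlf : ¬ l ∣ D.f := fun h => hl.2 (h.mul_left _)
      have hiff : l ∣ D.M ↔ (l : ℤ) ∣ NumberField.discr D.K := by
        rw [D.dvd_discr_iff hl.1, HeckeData.M, hl.1.dvd_mul, Nat.prime_dvd_prime_iff_eq hl.1 hrr]
        simp [hlr]
      rw [opSeq]
      split_ifs with hd
      · exact upSeq_seriesMap_theta h2 hl.1 hlf (hiff.mp hd) x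
      · exact heckeSeq_seriesMap_theta h2 hl.1 hlf (mt hiff.mpr hd) x
  have hstab : ∀ l ∈ D.ops, ∀ v ∈ U, opSeq D.M l v ∈ U := by
    intro l hl
    rcases hop l hl with ⟨rfl, h⟩ | ⟨hlr, h⟩
    · rw [h]; exact upSeq_mem_stabSpace hrr hrT N _
    · exact apply_mem_stabSpace N h (opSeq_upSeq_comm hl.1 hrr hlr)
  have hnil : ∀ l ∈ D.ops, ∀ v ∈ U, ∃ j,
      ((opSeq D.M l - D.chibar l • 1 : Module.End D.k (ℕ → D.k)) ^ j) v = 0 := by
    intro l hl v hv
    rcases hop l hl with ⟨rfl, h⟩ | ⟨hlr, h⟩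
    · rw [h, chibar, if_pos rfl]; exact ⟨N, hN v hv⟩
    · rw [chibar, if_neg hlr]
      obtain ⟨j, hj⟩ := exists_pow_eq_zero_stabSpace N h (opSeq_upSeq_comm hl.1 hrr hlr) hG
        (D.lift_theta_eq_tbar hl.1 fun h => hl.2 (h.mul_left _))
      exact ⟨j, hj v hv⟩
  obtain ⟨z, hz⟩ := D.exists_omega_lift
  have hrops := D.r_mem_ops
  let a := coeffMap hfix hcusp
  let φ := algebraMap (integralClosure ℤ ℂ) ℂ
  let F : Module.End ℂ (typeSpace D.f D.M D.sigma) :=
    opsType D.M D.sigma D.goodPrimes_ops ⟨D.r, hrops⟩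
  let Φ' : G2 D.K D.f → typeSpace D.f D.M D.sigma := fun g =>
    Submodule.inclusion (typeSpace_mono (dvd_mul_right D.N D.r)) (Φ g)
  have hΦ' : ∀ g (j : ℕ), Reduces φ D.red a ((⇑F - fun x => φ z • x)^[j] (Φ' g))
      (stabSeries π u D.r j (D.omega + 1) g) := by
    intro g j
    induction j with
    | zero =>
      choose w hw hw' using hΦ g
      exact ⟨w, fun n => hw n, fun n => by rw [hw']; rfl⟩
    | succ j ih =>
      rw [Function.iterate_succ_apply']
      have h1 := reduces_opsType hfix hcusp D.goodPrimes_ops D.red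
        ((dvd_mul_right 2 D.m).mul_right D.r) ⟨D.r, hrops⟩ _ _ ih
      rw [show opSeq (k := D.k) D.M ((⟨D.r, hrops⟩ : D.ops) : ℕ) = upSeq D.r by
        rw [opSeq, if_pos (show D.r ∣ D.M from dvd_mul_left D.r D.N)]] at h1
      have h3 := h1.sub_smul ih z
      rw [hz] at h3
      have hs : stabSeries π u D.r (j + 1) (D.omega + 1) g =
          upSeq D.r (stabSeries π u D.r j (D.omega + 1) g) -
            (D.omega + 1) • stabSeries π u D.r j (D.omega + 1) g := by
        rw [stabSeries, pow_succ', Module.End.mul_apply]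
        rfl
      rw [hs]
      exact h3
  have := Fintype.ofFinite (G2 D.K D.f)
  rw [Nat.card_eq_fintype_card]
  exact card_le_finrank_goodPart_typeSpace hfix hcusp D.span_w0 D.goodPrimes_ops D.red
    ((dvd_mul_right 2 D.m).mul_right D.r) D.chibar U hstab hnil
    (fun g => (⇑F - fun x => φ z • x)^[N] (Φ' g)) (fun g => stabSeries π u D.r N (D.omega + 1) g)
    (fun g => stabSeries_mem D.r N _ g) (fun g => hΦ' g N)
    (linearIndependent_stabSeries hrr hrT ht D.omega_spec hG h2 toG2_surjective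
      D.ringChar_cube D.ringChar_ne_one N)

/-- The stable space of the good parts, in the shape used by the count. -/
theorem exists_stable_submodule (hr : D.RSplit)
    (huniv : ∀ g : G2 D.K D.f, ∃ Φ : typeSpace D.f (2 * D.m) D.sigma, ∀ n,
      ∃ a : integralClosure ℤ ℂ, (a : ℂ) = ModularFormClass.qCoeff (evalFun D.f D.w0 Φ.1) n ∧
        D.red a = series (toG2 D.K D.f) D.ringChar g n) :
    ∃ A : Submodule ℂ (typeSpace D.f D.M D.sigma),
      (∀ l, ∀ x ∈ A, opsType D.M D.sigma D.goodPrimes_ops l x ∈ A) ∧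
      Nat.card (G2 D.K D.f) ≤ finrank ℂ A ∧
      A ≤ ⨆ c ∈ {c | Count.IsLift D.red (fun l : D.ops => D.chibar l) c},
        part (V := typeSpace D.f D.M D.sigma) (opsType D.M D.sigma D.goodPrimes_ops) c := by
  choose Φ hΦ using huniv
  refine ⟨_, fun l => apply_mem_goodPart (φ := algebraMap (integralClosure ℤ ℂ) ℂ) (red := D.red)
    (χ := fun l : D.ops => D.chibar l)
    (commute_opsType D.isTorusFixed D.isCuspidalType_M D.span_w0 D.goodPrimes_ops) l,
    D.natCard_G2_le_finrank_goodPart hr Φ hΦ, ?_⟩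
  exact iSup₂_le fun c hc => le_iSup₂ (f := fun c (_ : c ∈ {c | Count.IsLift D.red
    (fun l : D.ops => D.chibar l) c}) => part (V := typeSpace D.f D.M D.sigma) (opsType D.M D.sigma D.goodPrimes_ops) c) c
    (by obtain ⟨b, hb, hb'⟩ := hc; exact fun l => ⟨b l, hb l, hb' l⟩)

end Fermat.Agent.TwoAdic.HeckeSide.HeckeData
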