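import Fermat.Agent.TwoAdic.TypeSpace.GoodPart
import Fermat.Agent.TwoAdic.TypeSpace.GoodPart.Residual
import Fermat.Agent.TwoAdic.TypeSpace.Eval
import Fermat.Agent.TwoAdic.Cohom.Exact
import Fermat.Agent.Periods.HeckeCoeff
import Fermat.Agent.HeckeFinite.Finite
import Fermat.Prelude.Thm_CuspForm_heckeTLin_comm
import Fermat.Prelude.Thm_CuspForm_heckeULin_comm
import Fermat.Prelude.Thm_CuspForm_heckeTLin_heckeULin_comm

/-!
# The unit argument on a type space

On a type space the coefficient map through evaluation is injective and turns the operators at the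
primes of `S` into `U_ℓ` and `T_ℓ`; the systems occurring are algebraic integers. Hence a family of
forms whose reductions are independent inside a stable space on which the reduced operators are the
residual system up to nilpotents bounds the good part from below.

Owner: helper9 (LT2).
-/

set_option autoImplicit false

noncomputable section

open Module CongruenceSubgroup UpperHalfPlane
open scoped MatrixGroups ModularForm

namespace Fermat.Agent.TwoAdic.TypeSpace

open Cohom Weil Fermat.Agent.Periods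

theorem exists_eigenvector_of_pow_eq_zero {L V : Type*} [Field L] [AddCommGroup V] [Module L V]
    {f : Module.End L V} {c : L} {x : V} {N : ℕ} (hx : x ≠ 0)
    (h : ((f - c • (1 : Module.End L V)) ^ N) x = 0) : ∃ y ≠ (0 : V), f y = c • y := by
  induction N with
  | zero => exact absurd h hx
  | succ N ih =>
    by_cases h' : ((f - c • (1 : Module.End L V)) ^ N) x = 0
    · exact ih h'
    · rw [pow_succ', Module.End.mul_apply] at h
      exact ⟨_, h', sub_eq_zero.mp h⟩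

variable {D M : ℕ} [NeZero D] [NeZero M] {W : Type*} [AddCommGroup W] [Module ℂ W]
  {σ : Representation ℂ (GL (Fin 2) (ZMod D)) W} {w₀ : W}
  (hfix : IsTorusFixed σ w₀) (hcusp : IsCuspidalType M σ)
  (hspan : Submodule.span ℂ {w | ∃ g : GL (Fin 2) (ZMod D), ∃ b : ZMod D,
    (g : Matrix (Fin 2) (Fin 2) (ZMod D)) = !![1, b; 0, 1] ∧ σ g w₀ = w} = ⊤)

/-- The coefficients of the evaluated form. -/
def coeffMap : typeSpace D M σ →ₗ[ℂ] (ℕ → ℂ) :=
  LinearMap.pi fun n => (qCoeffLin (M * D ^ 2) n).comp (evalForm hfix hcusp)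

theorem coeffMap_apply (Φ : typeSpace D M σ) (n : ℕ) :
    coeffMap hfix hcusp Φ n = ModularFormClass.qCoeff (evalFun D w₀ Φ.1) n := rfl

include hspan in
theorem coeffMap_injective : Function.Injective (coeffMap hfix hcusp) := fun _ _ h =>
  evalForm_injective hfix hcusp hspan (ext_qCoeff fun n => congrFun h n)

variable {S : Set ℕ} (hS : GoodPrimes D S)

variable (M σ) in
/-- The Hecke operators of the type space at the primes of `S`. -/
def opsType : S → Module.End ℂ (typeSpace D M σ) :=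
  fun ℓ => heckeType D M σ (hS ℓ ℓ.2).1 (hS ℓ ℓ.2).2

theorem coeffMap_opsType (ℓ : S) (Φ : typeSpace D M σ) (n : ℕ) :
    coeffMap hfix hcusp (opsType M σ hS ℓ Φ) n = coeffMap hfix hcusp Φ (n * ℓ) +
      if (ℓ : ℕ) ∣ M then 0
      else if (ℓ : ℕ) ∣ n then (ℓ : ℂ) * coeffMap hfix hcusp Φ (n / ℓ) else 0 := by
  have : NeZero (M * D ^ 2) := ⟨mul_ne_zero (NeZero.ne M) (pow_ne_zero 2 (NeZero.ne D))⟩
  have hℓ := hS ℓ ℓ.2
  by_cases hM : (ℓ : ℕ) ∣ M
  · show ModularFormClass.qCoeff (evalForm hfix hcusp (heckeType D M σ hℓ.1 hℓ.2 Φ)) n = _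
    rw [evalForm_heckeType_of_dvd hfix hcusp hℓ.1 hℓ.2 hM, qCoeff_heckeULin hℓ.1, if_pos hM,
      add_zero]
    rfl
  · show ModularFormClass.qCoeff (evalForm hfix hcusp (heckeType D M σ hℓ.1 hℓ.2 Φ)) n = _
    rw [evalForm_heckeType_of_not_dvd hfix hcusp hℓ.1 hℓ.2 hM, qCoeff_heckeTLin hℓ.1, if_neg hM]
    rfl

include hfix hcusp in
theorem exists_evalForm_opsType (ℓ : S) :
    ∃ F ∈ CuspForm.heckeAlgebra (M * D ^ 2) 2 ∅, ∀ Φ,
      evalForm hfix hcusp (opsType M σ hS ℓ Φ) = F (evalForm hfix hcusp Φ) := by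
  have : NeZero (M * D ^ 2) := ⟨mul_ne_zero (NeZero.ne M) (pow_ne_zero 2 (NeZero.ne D))⟩
  have hℓ := hS ℓ ℓ.2
  by_cases hM : (ℓ : ℕ) ∣ M
  · exact ⟨_, CuspForm.heckeULin_mem_heckeAlgebra hℓ.1 (hM.mul_right _) (Set.notMem_empty _),
      fun Φ => evalForm_heckeType_of_dvd hfix hcusp hℓ.1 hℓ.2 hM Φ⟩
  · exact ⟨_, CuspForm.heckeTLin_mem_heckeAlgebra hℓ.1
      (fun h => hM ((dvd_mul_sq_iff hℓ.1 hℓ.2).mp h)) (Set.notMem_empty _),
      fun Φ => evalForm_heckeType_of_not_dvd hfix hcusp hℓ.1 hℓ.2 hM Φ⟩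

include hfix hcusp hspan in
theorem commute_opsType (ℓ ℓ' : S) : Commute (opsType M σ hS ℓ) (opsType M σ hS ℓ') := by
  obtain ⟨F, hF, hFe⟩ := exists_evalForm_opsType hfix hcusp hS ℓ
  obtain ⟨F', hF', hFe'⟩ := exists_evalForm_opsType hfix hcusp hS ℓ'
  refine LinearMap.ext fun Φ => evalForm_injective hfix hcusp hspan ?_
  rw [Module.End.mul_apply, Module.End.mul_apply, hFe, hFe', hFe', hFe, ← Module.End.mul_apply,
    ← Module.End.mul_apply]
  have : NeZero (M * D ^ 2) := ⟨mul_ne_zero (NeZero.ne M) (pow_ne_zero 2 (NeZero.ne D))⟩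
  have h := congrArg Subtype.val (mul_comm
    (⟨F, hF⟩ : CuspForm.heckeAlgebra (M * D ^ 2) 2 ∅) ⟨F', hF'⟩)
  exact congrArg (fun X : Module.End ℂ _ => X (evalForm hfix hcusp Φ)) h

include hfix hcusp hspan in
/-- The systems occurring in a type space consist of algebraic integers. -/
theorem part_opsType_integral (c : S → ℂ) (hc : part (V := typeSpace D M σ) (opsType M σ hS) c ≠ ⊥) (ℓ : S) :
    c ℓ ∈ Set.range (algebraMap (integralClosure ℤ ℂ) ℂ) := by
  have : NeZero (M * D ^ 2) := ⟨mul_ne_zero (NeZero.ne M) (pow_ne_zero 2 (NeZero.ne D))⟩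
  obtain ⟨x, hx, hx0⟩ := (Submodule.ne_bot_iff _).mp hc
  obtain ⟨N, hN⟩ := mem_part.mp hx ℓ
  obtain ⟨y, hy0, hy⟩ := exists_eigenvector_of_pow_eq_zero hx0 hN
  obtain ⟨F, hF, hFe⟩ := exists_evalForm_opsType hfix hcusp hS ℓ
  have hev : F (evalForm hfix hcusp y) = c ℓ • evalForm hfix hcusp y := by rw [← hFe, hy, map_smul]
  have := HeckeFinite.moduleFinite_heckeAlgebra (M * D ^ 2) 2 ∅
  obtain ⟨P, hP, hPF⟩ := Algebra.IsIntegral.isIntegral
    (R := ℤ) (⟨F, hF⟩ : CuspForm.heckeAlgebra (M * D ^ 2) 2 ∅)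
  have hPF' : Polynomial.aeval F P = 0 := by
    have := congrArg (Subalgebra.val _) hPF
    rwa [← Polynomial.aeval_def, ← Polynomial.aeval_algHom_apply, map_zero] at this
  have hint : IsIntegral ℤ (c ℓ) := by
    refine ⟨P, hP, ?_⟩
    have h := Module.End.aeval_apply_of_hasEigenvector (p := P.map (algebraMap ℤ ℂ))
      (f := F) (μ := c ℓ) (x := evalForm hfix hcusp y)
      ⟨Module.End.mem_eigenspace_iff.mpr hev,
        fun h0 => hy0 (evalForm_injective hfix hcusp hspan (h0.trans (map_zero _).symm))⟩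
    rw [Polynomial.aeval_map_algebraMap, hPF', LinearMap.zero_apply, eq_comm, smul_eq_zero] at h
    rw [← Polynomial.eval_map]
    exact h.resolve_right fun h0 =>
      hy0 (evalForm_injective hfix hcusp hspan (h0.trans (map_zero _).symm))
  exact ⟨⟨c ℓ, hint⟩, rfl⟩

variable {k : Type*} [Field k] [CharP k 2] (red : integralClosure ℤ ℂ →+* k)

include hfix hcusp in
theorem reduces_opsType (hM2 : 2 ∣ M) (ℓ : S) (Φ : typeSpace D M σ) (v : ℕ → k)
    (h : Reduces (algebraMap (integralClosure ℤ ℂ) ℂ) red (coeffMap hfix hcusp) Φ v) :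
    Reduces (algebraMap (integralClosure ℤ ℂ) ℂ) red (coeffMap hfix hcusp)
      (opsType M σ hS ℓ Φ) (opSeq M ℓ v) := by
  obtain ⟨w, hw, hw'⟩ := h
  refine ⟨fun n => w (n * ℓ) + if (ℓ : ℕ) ∣ M then 0
    else if (ℓ : ℕ) ∣ n then ((ℓ : ℕ) : integralClosure ℤ ℂ) * w (n / ℓ) else 0,
    fun n => ?_, fun n => ?_⟩
  · rw [coeffMap_opsType, map_add, hw]
    split_ifs <;> simp [← hw]
  · rw [map_add, hw', opSeq]
    by_cases hM : (ℓ : ℕ) ∣ M
    · rw [if_pos hM, if_pos hM, map_zero, add_zero]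
      exact congrArg v (mul_comm n ℓ)
    · have hodd : ((ℓ : ℕ) : k) = 1 := by
        have h2 : (ℓ : ℕ) ≠ 2 := fun h => hM (h ▸ hM2)
        obtain ⟨j, hj⟩ := (hS ℓ ℓ.2).1.odd_of_ne_two h2
        rw [hj, Nat.cast_add, Nat.cast_mul, Nat.cast_ofNat, CharTwo.two_eq_zero]
        simp
      rw [if_neg hM, if_neg hM]
      show _ = v (ℓ * n) + if (ℓ : ℕ) ∣ n then v (n / ℓ) else 0
      rw [mul_comm n]
      split_ifs with hd <;> simp [hw', hodd]

include hfix hcusp hspan in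
/-- **The unit argument on a type space.** -/
theorem card_le_finrank_goodPart_typeSpace (hM2 : 2 ∣ M) (χ : ℕ → k) (U : Submodule k (ℕ → k))
    (hU : ∀ ℓ ∈ S, ∀ v ∈ U, opSeq M ℓ v ∈ U)
    (hnil : ∀ ℓ ∈ S, ∀ v ∈ U, ∃ N,
      ((opSeq M ℓ - χ ℓ • 1 : Module.End k (ℕ → k)) ^ N) v = 0)
    {G : Type*} [Fintype G] (Φ : G → typeSpace D M σ) (s : G → ℕ → k) (hs : ∀ g, s g ∈ U)
    (hΦ : ∀ g, Reduces (algebraMap (integralClosure ℤ ℂ) ℂ) red (coeffMap hfix hcusp) (Φ g) (s g))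
    (hind : LinearIndependent k s) :
    Fintype.card G ≤ finrank ℂ
      (goodPart (A := typeSpace D M σ) (algebraMap (integralClosure ℤ ℂ) ℂ) red (opsType M σ hS)
        fun ℓ : S => χ ℓ) :=
  haveI := finiteDimensional_typeSpace hfix hcusp hspan
  card_le_finrank_goodPart (fun ℓ : S => opSeq M ℓ) Subtype.val_injective
    (commute_opsType hfix hcusp hspan hS) (part_opsType_integral hfix hcusp hspan hS)
    (fun ℓ x v _ h => reduces_opsType hfix hcusp hS red hM2 ℓ x v h)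
    (fun ℓ => hU ℓ ℓ.2) (fun ℓ => hnil ℓ ℓ.2) Φ s hs hΦ hind

end Fermat.Agent.TwoAdic.TypeSpace
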